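/-
S35-GEO (helper27's tree, report #3191), supplier (FS3) (helper10): the fields `ne`, `arch₁`,
`arch₂` of `S35.H27.FrobData` on the concrete two-valuation model `S34.H30.stdV`.

* `arch_of_hasScale`, `VGood.arch₁`, `VGood.arch₂` (abstract): a valuation ring with the
  `ϖ`-adic scale (`S34.H10.HasScale`) is `ϖ`-archimedean.
* `exists_pow_mul_mem` : a valuation ring `A ≠ ⊤` of `ℚ̄` is archimedean with respect to every
  nonzero nonunit.
* `ne_ratForm` : the restrictions to the `K₀`-form of level `M q` of the two Gauss rings are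
  different (the separating element `β j - (α j) ^ q` is defined over `ℚ`).
* `arch_ratForm₁`, `arch_ratForm₂` : both restrictions are `ϖ`-archimedean for a uniformiser
  `ϖ` of `A ∩ K₀` (from `TwoGauss.scale`: the value group of `O₁` is that of `A`).
* `stdV_ne`, `stdV_arch₁`, `stdV_arch₂` : the same statements on the fields of `stdV`.
-/
import Fermat.Agent.S34.H30.Leaves
import Fermat.Agent.S34.H10.M3
import Fermat.Agent.S34.H64.Desc

set_option autoImplicit false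
set_option linter.style.haveILetI false
set_option linter.unusedSectionVars false

open AlgebraicCurve ModularCurve

noncomputable section

namespace Fermat.Agent.S35.H10

open Fermat.Agent.S34.H10 Fermat.Agent.S34.H7 Fermat.Agent.S18 Fermat.Agent.S18.H74
  Fermat.Agent.S18.H19

/-! ### Abstract: scale implies archimedean -/

section Abstract

variable {A₀ : Type*} [CommRing A₀] {F : Type*} [Field F] [Algebra A₀ F]

/-- A valuation ring with the `ϖ`-adic scale is `ϖ`-archimedean. -/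
theorem arch_of_hasScale {ϖ : A₀} {V : ValuationSubring F} (hπV : algebraMap A₀ F ϖ ∈ V)
    (hsc : HasScale ϖ V) (y : F) : ∃ n : ℕ, ϖ ^ n • y ∈ V := by
  by_cases hy : y = 0
  · exact ⟨0, by rw [hy, smul_zero]; exact V.zero_mem⟩
  by_cases hπ0 : algebraMap A₀ F ϖ = 0
  · refine ⟨1, ?_⟩
    rw [pow_one, Algebra.smul_def, hπ0, zero_mul]
    exact V.zero_mem
  obtain ⟨n, hn⟩ := hsc y hy
  have hk : 0 ≤ ((-n).toNat : ℤ) + n := by omega
  obtain ⟨k, hk'⟩ := Int.eq_ofNat_of_zero_le hk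
  refine ⟨(-n).toNat, ?_⟩
  have h1 : algebraMap A₀ F ϖ ^ (-n).toNat
      = algebraMap A₀ F ϖ ^ k / algebraMap A₀ F ϖ ^ n := by
    have h2 : (((-n).toNat : ℕ) : ℤ) = (k : ℤ) - n := by omega
    calc algebraMap A₀ F ϖ ^ (-n).toNat
        = algebraMap A₀ F ϖ ^ (((-n).toNat : ℕ) : ℤ) := (zpow_natCast _ _).symm
      _ = algebraMap A₀ F ϖ ^ ((k : ℤ) - n) := by rw [h2]
      _ = algebraMap A₀ F ϖ ^ (k : ℤ) / algebraMap A₀ F ϖ ^ n := zpow_sub₀ hπ0 _ _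
      _ = algebraMap A₀ F ϖ ^ k / algebraMap A₀ F ϖ ^ n := by rw [zpow_natCast]
  have e : ϖ ^ (-n).toNat • y = algebraMap A₀ F ϖ ^ k * (y / algebraMap A₀ F ϖ ^ n) := by
    rw [Algebra.smul_def, map_pow, h1, div_mul_eq_mul_div, mul_div_assoc]
  rw [e]
  exact V.mul_mem _ _ (V.pow_mem hπV k) hn.1

theorem VGood.arch₁ {ϖ : A₀} {j : F} {C₁ C₂ : Subalgebra A₀ F} {V₁ V₂ : ValuationSubring F}
    (hG : VGood ϖ j C₁ C₂ V₁ V₂) (y : F) : ∃ n : ℕ, ϖ ^ n • y ∈ V₁ :=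
  arch_of_hasScale (hG.base₁ ϖ) hG.scale₁ y

theorem VGood.arch₂ {ϖ : A₀} {j : F} {C₁ C₂ : Subalgebra A₀ F} {V₁ V₂ : ValuationSubring F}
    (hG : VGood ϖ j C₁ C₂ V₁ V₂) (y : F) : ∃ n : ℕ, ϖ ^ n • y ∈ V₂ :=
  arch_of_hasScale (hG.base₂ ϖ) hG.scale₂ y

end Abstract

/-! ### Valuation rings of `ℚ̄` are archimedean -/

/-- A valuation ring `A ≠ ⊤` of `ℚ̄` is archimedean with respect to a nonzero nonunit `p`. -/
theorem exists_pow_mul_mem (A : ValuationSubring Kb) (hAtop : A ≠ ⊤) (p c : Kb) (hp0 : p ≠ 0)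
    (hpA : p ∈ A.nonunits) : ∃ n : ℕ, p ^ n * c ∈ A := by
  rcases A.mem_or_inv_mem c with hc | hc
  · exact ⟨0, by rw [pow_zero, one_mul]; exact hc⟩
  by_cases hc0 : c = 0
  · exact ⟨0, by rw [hc0, mul_zero]; exact A.zero_mem⟩
  let K₁ : IntermediateField ℚ Kb := IntermediateField.adjoin ℚ ({p, c} : Set Kb)
  haveI : FiniteDimensional ℚ K₁ :=
    IntermediateField.finiteDimensional_adjoin (fun x _ => Algebra.IsIntegral.isIntegral x)
  haveI : IsDiscreteValuationRing ↥(A.comap (algebraMap K₁ Kb)) :=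
    Fermat.Agent.S34.H78.isDVR_comap hAtop K₁
  have hpK : p ∈ K₁ := IntermediateField.subset_adjoin ℚ _ (by simp)
  have hcK : c ∈ K₁ := IntermediateField.subset_adjoin ℚ _ (by simp)
  let p₁ : ↥(A.comap (algebraMap K₁ Kb)) :=
    ⟨⟨p, hpK⟩, (ValuationSubring.nonunits_subset hpA : p ∈ A)⟩
  let b₁ : ↥(A.comap (algebraMap K₁ Kb)) := ⟨⟨c⁻¹, K₁.inv_mem hcK⟩, hc⟩
  have hcoe : ∀ z : ↥(A.comap (algebraMap K₁ Kb)), (((z : K₁) : Kb)) ∈ A := fun z => z.2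
  have hp₁0 : p₁ ≠ 0 := by
    intro h
    apply hp0
    have h1 := congrArg (fun z : ↥(A.comap (algebraMap K₁ Kb)) => ((z : K₁) : Kb)) h
    exact h1
  have hb₁0 : b₁ ≠ 0 := by
    intro h
    apply inv_ne_zero hc0
    have h1 := congrArg (fun z : ↥(A.comap (algebraMap K₁ Kb)) => ((z : K₁) : Kb)) h
    exact h1
  have hp₁nu : ¬ IsUnit p₁ := by
    rintro ⟨u, hu⟩
    rw [ValuationSubring.mem_nonunits_iff_or] at hpA
    rcases hpA with h | h
    · exact hp0 h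
    · apply h
      have h1 : p * (((((u⁻¹ : (↥(A.comap (algebraMap K₁ Kb)))ˣ) :
          ↥(A.comap (algebraMap K₁ Kb))) : K₁)) : Kb) = 1 := by
        have h2 : p₁ * ((u⁻¹ : (↥(A.comap (algebraMap K₁ Kb)))ˣ) :
            ↥(A.comap (algebraMap K₁ Kb))) = 1 := by
          rw [← hu, Units.mul_inv]
        have h3 := congrArg (fun z : ↥(A.comap (algebraMap K₁ Kb)) => ((z : K₁) : Kb)) h2
        exact h3
      rw [inv_eq_of_mul_eq_one_right h1]
      exact hcoe _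
  obtain ⟨π, hπ⟩ := IsDiscreteValuationRing.exists_irreducible ↥(A.comap (algebraMap K₁ Kb))
  obtain ⟨k, u, hb⟩ := IsDiscreteValuationRing.eq_unit_mul_pow_irreducible hb₁0 hπ
  obtain ⟨e, u', hp⟩ := IsDiscreteValuationRing.eq_unit_mul_pow_irreducible hp₁0 hπ
  have he : e ≠ 0 := by
    rintro rfl
    apply hp₁nu
    rw [hp, pow_zero, mul_one]
    exact u'.isUnit
  have hek : e * k = k + (e * k - k) := by
    have h1 : k ≤ e * k := Nat.le_mul_of_pos_left k (Nat.pos_of_ne_zero he)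
    omega
  have hd : p₁ ^ k = b₁ * (((u⁻¹ : (↥(A.comap (algebraMap K₁ Kb)))ˣ) :
      ↥(A.comap (algebraMap K₁ Kb))) * (u' : ↥(A.comap (algebraMap K₁ Kb))) ^ k
        * π ^ (e * k - k)) := by
    have h1 : (u : ↥(A.comap (algebraMap K₁ Kb))) *
        ((u⁻¹ : (↥(A.comap (algebraMap K₁ Kb)))ˣ) : ↥(A.comap (algebraMap K₁ Kb))) = 1 :=
      Units.mul_inv u
    have hpow : π ^ (e * k) = π ^ k * π ^ (e * k - k) := by rw [← pow_add, ← hek]
    rw [hb, hp, mul_pow, ← pow_mul, hpow]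
    linear_combination (-((u' : ↥(A.comap (algebraMap K₁ Kb))) ^ k * π ^ k
      * π ^ (e * k - k))) * h1
  refine ⟨k, ?_⟩
  have hd' := congrArg (fun z : ↥(A.comap (algebraMap K₁ Kb)) => ((z : K₁) : Kb)) hd
  have hd'' : p ^ k = c⁻¹ * ((((((u⁻¹ : (↥(A.comap (algebraMap K₁ Kb)))ˣ) :
      ↥(A.comap (algebraMap K₁ Kb))) * (u' : ↥(A.comap (algebraMap K₁ Kb))) ^ k
        * π ^ (e * k - k) : ↥(A.comap (algebraMap K₁ Kb))) : K₁)) : Kb) := hd'
  rw [hd'', mul_comm c⁻¹, mul_assoc, inv_mul_cancel₀ hc0, mul_one]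
  exact hcoe _

/-! ### The two Gauss rings on the `K₀`-form of level `M q` -/

section Concrete

open Fermat.Agent.S34.H64 Fermat.Agent.S34.H61

variable {M q : ℕ} [NeZero M] [hqF : Fact q.Prime] {hqM : ¬ q ∣ M} {A : ValuationSubring Kb}
  {hA : A.LiesOverPrime q} {O₁ : ValuationSubring (FN (M * q))}
  {w : FN (M * q) ≃+* FN (M * q)}

/-- **`FrobData.ne` on the concrete model.**  The restrictions of the two Gauss rings to the
`K₀`-form of level `M q` are different. -/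
theorem ne_ratForm (hTG : TwoGauss M q hqM A hA O₁ w) (K₀ : IntermediateField ℚ Kb) :
    O₁.comap (algebraMap ↥(ratForm (M * q) K₀) (FN (M * q))) ≠
      (gaussTwo M q O₁ w).comap (algebraMap ↥(ratForm (M * q) K₀) (FN (M * q))) := by
  haveI : NeZero q := ⟨hqF.out.ne_zero⟩
  have hjM : Fermat.Agent.S24.jgen M ∈ ratForm M K₀ :=
    Fermat.Agent.S34.H64.jgen_mem_ratForm M K₀
  intro heq
  have hu1 := hTG.sep_mem_nonunits
  have hu2 := hTG.sep_not_mem_nonunits₂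
  rw [ValuationSubring.mem_nonunits_iff_or] at hu1 hu2
  rw [not_or, not_not] at hu2
  rcases hu1 with h0 | h1
  · exact hu2.1 h0
  · apply h1
    have h3 : (Fermat.Agent.S34.H64.betaForm M q K₀ ⟨Fermat.Agent.S24.jgen M, hjM⟩ -
        Fermat.Agent.S34.H64.alphaForm M q K₀ ⟨Fermat.Agent.S24.jgen M, hjM⟩ ^ q)⁻¹ ∈
        (gaussTwo M q O₁ w).comap (algebraMap ↥(ratForm (M * q) K₀) (FN (M * q))) := by
      show algebraMap ↥(ratForm (M * q) K₀) (FN (M * q)) _ ∈ gaussTwo M q O₁ w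
      rw [map_inv₀]
      exact hu2.2
    rw [← heq] at h3
    have h4 : algebraMap ↥(ratForm (M * q) K₀) (FN (M * q))
        (Fermat.Agent.S34.H64.betaForm M q K₀ ⟨Fermat.Agent.S24.jgen M, hjM⟩ -
          Fermat.Agent.S34.H64.alphaForm M q K₀ ⟨Fermat.Agent.S24.jgen M, hjM⟩ ^ q)⁻¹ ∈ O₁ := h3
    rw [map_inv₀] at h4
    exact h4

/-- **`FrobData.arch₁` on the concrete model.** -/
theorem arch_ratForm₁ (hTG : TwoGauss M q hqM A hA O₁ w) (hAtop : A ≠ ⊤)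
    (K₀ : IntermediateField ℚ Kb) (ϖ : ↥(A.comap (algebraMap K₀ Kb))) (hϖ : Irreducible ϖ) :
    letI := algComap (A.comap (algebraMap K₀ Kb)) (ratForm (M * q) K₀)
    ∀ y : ↥(ratForm (M * q) K₀), ∃ n : ℕ,
      ϖ ^ n • y ∈ O₁.comap (algebraMap ↥(ratForm (M * q) K₀) (FN (M * q))) := by
  letI := algComap (A.comap (algebraMap K₀ Kb)) (ratForm (M * q) K₀)
  intro y
  have e1 : ∀ n : ℕ, algebraMap ↥(ratForm (M * q) K₀) (FN (M * q)) (ϖ ^ n • y)
      = algebraMap Kb (FN (M * q)) (((ϖ : K₀) : Kb) ^ n) * (y : FN (M * q)) := fun n => rfl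
  by_cases hy : y = 0
  · refine ⟨0, ?_⟩
    show algebraMap ↥(ratForm (M * q) K₀) (FN (M * q)) (ϖ ^ 0 • y) ∈ O₁
    have hy0 : (y : FN (M * q)) = 0 := by rw [hy]; rfl
    rw [e1, hy0, mul_zero]
    exact O₁.zero_mem
  have hy' : (y : FN (M * q)) ≠ 0 := fun h => hy (Subtype.ext h)
  obtain ⟨c, hc0, h1, -⟩ := hTG.scale (y : FN (M * q)) hy'
  have hp0 : ((ϖ : K₀) : Kb) ≠ 0 := by
    intro h
    apply hϖ.ne_zero
    apply Subtype.ext
    apply Subtype.ext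
    exact h
  have hpA : ((ϖ : K₀) : Kb) ∈ A.nonunits := by
    rw [ValuationSubring.mem_nonunits_iff_or]
    right
    intro hinv
    apply hϖ.not_isUnit
    have hmem : ((ϖ : K₀))⁻¹ ∈ A.comap (algebraMap K₀ Kb) := by
      show algebraMap K₀ Kb ((ϖ : K₀))⁻¹ ∈ A
      rw [map_inv₀]
      exact hinv
    have hϖK : (ϖ : K₀) ≠ 0 := fun h => hp0 (by rw [h]; rfl)
    exact IsUnit.of_mul_eq_one (⟨((ϖ : K₀))⁻¹, hmem⟩ : ↥(A.comap (algebraMap K₀ Kb)))
      (Subtype.ext (mul_inv_cancel₀ hϖK))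
  obtain ⟨n, hn⟩ := exists_pow_mul_mem A hAtop ((ϖ : K₀) : Kb) c⁻¹ hp0 hpA
  refine ⟨n, ?_⟩
  show algebraMap ↥(ratForm (M * q) K₀) (FN (M * q)) (ϖ ^ n • y) ∈ O₁
  have e : algebraMap ↥(ratForm (M * q) K₀) (FN (M * q)) (ϖ ^ n • y)
      = algebraMap Kb (FN (M * q)) (((ϖ : K₀) : Kb) ^ n * c⁻¹)
        * (algebraMap Kb (FN (M * q)) c * (y : FN (M * q))) := by
    have hc' : algebraMap Kb (FN (M * q)) c ≠ 0 :=
      (map_ne_zero_iff _ (algebraMap Kb (FN (M * q))).injective).mpr hc0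
    rw [e1, map_mul, map_inv₀, mul_assoc, inv_mul_cancel_left₀ hc']
  rw [e]
  exact O₁.mul_mem _ _ ((hTG.algebraMap_mem_iff _).2 hn) h1

/-- **`FrobData.arch₂` on the concrete model.** -/
theorem arch_ratForm₂ (hTG : TwoGauss M q hqM A hA O₁ w) (hAtop : A ≠ ⊤)
    (K₀ : IntermediateField ℚ Kb) (ϖ : ↥(A.comap (algebraMap K₀ Kb))) (hϖ : Irreducible ϖ) :
    letI := algComap (A.comap (algebraMap K₀ Kb)) (ratForm (M * q) K₀)
    ∀ y : ↥(ratForm (M * q) K₀), ∃ n : ℕ,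
      ϖ ^ n • y ∈ (gaussTwo M q O₁ w).comap
        (algebraMap ↥(ratForm (M * q) K₀) (FN (M * q))) := by
  letI := algComap (A.comap (algebraMap K₀ Kb)) (ratForm (M * q) K₀)
  intro y
  obtain ⟨n, hn⟩ := arch_ratForm₁ hTG hAtop K₀ ϖ hϖ (Fermat.Agent.S34.H64.wForm hTG K₀ y)
  refine ⟨n, ?_⟩
  rw [Fermat.Agent.S34.H64.mem_gaussTwo_comap_iff hTG K₀]
  have e : Fermat.Agent.S34.H64.wForm hTG K₀ (ϖ ^ n • y)
      = ϖ ^ n • Fermat.Agent.S34.H64.wForm hTG K₀ y := by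
    rw [Algebra.smul_def, Algebra.smul_def, map_mul]
    congr 1
    exact Fermat.Agent.S34.H64.wForm_algebraMap hTG K₀ _
  rw [e]
  exact hn

/-! ### The fields of `S35.H27.FrobData` on `stdV` -/

open Fermat.Agent.S34.H30

/-- The three discreteness fields `ne`, `arch₁`, `arch₂` of `S35.H27.FrobData`. -/
def NeArch {N : ℕ} (D : VData N) : Prop :=
  D.V₁ ≠ D.V₂ ∧ (∀ y : D.F₀, ∃ n : ℕ, D.ϖ ^ n • y ∈ D.V₁) ∧
    (∀ y : D.F₀, ∃ n : ℕ, D.ϖ ^ n • y ∈ D.V₂)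

/-- **(FS3)** on the concrete model: the two Gauss rings of `stdV` are distinct and
`ϖ`-archimedean. -/
theorem stdV_neArch (hTG : TwoGauss M q hqM A hA O₁ w) (hAtop : A ≠ ⊤)
    (K₀ : IntermediateField ℚ Kb) [FiniteDimensional ℚ K₀] [Normal ℚ K₀]
    (ϖ : ↥(A.comap (algebraMap K₀ Kb))) (hϖ : Irreducible ϖ) (j : ↥(ratForm (M * q) K₀))
    (σ : Kb ≃ₐ[ℚ] Kb) : NeArch (stdV M q A hAtop O₁ w K₀ ϖ j σ) :=
  ⟨ne_ratForm hTG K₀, arch_ratForm₁ hTG hAtop K₀ ϖ hϖ, arch_ratForm₂ hTG hAtop K₀ ϖ hϖ⟩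

end Concrete

end Fermat.Agent.S35.H10
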