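/-
S35-GEO, leaf (L6b), piece (6-transfer) (helper10): the transversality clause of `H27.Crossing`
(its sixth conjunct) at the closed points on both components of the finite chart of the concrete
model `S34.H30.stdV` over a normal number field `K₀`, from the same clause over the inertia
field `E = H92.inertiaField A K₀` of `A` in `K₀`.

* `CrossFib D`        : the sixth conjunct of `H27.Crossing` at every closed point of the special
                        fibre of the finite chart of the model `D` lying on both components;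
* `CrossFibEFor B`    : the same clause for the chart over the inertia field (binder block of
                        `S34.H77.RegularCrossFor B`, the regular-node conclusion replaced by the
                        transversality clause);
* `crossFib_stdV_of_pt` : `CrossFib (stdV …)` from the clause over the inertia field for the one
                        base function at hand;
* `crossFib_stdV`     : `CrossFibEFor B → CrossFib (stdV …)` on the binder block of the relative
                        leaves (`LevelOK`, `B M q x₀`).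

Proof: `C_{K₀} = C_E + ϖ C_{K₀}` (`S34.H46.chart_dec_ratForm_hom`), the trace of the point on
the chart over `E` is a closed point on both components, and `S35.H97.fib_of_dec`.
-/
import Fermat.Agent.S34.H77.CrossFinal
import Fermat.Agent.S35.H97.ChartBranch

set_option autoImplicit false
set_option linter.style.haveILetI false
set_option linter.unusedSectionVars false

open AlgebraicCurve ModularCurve

noncomputable section

namespace Fermat.Agent.S35.H10

open Fermat.Agent.S34.H27 Fermat.Agent.S34.H10 Fermat.Agent.S34.H7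
  Fermat.Agent.S18 Fermat.Agent.S18.H74 Fermat.Agent.S18.H19 Fermat.Agent.S34.H19
  Fermat.Agent.S34.H61 Fermat.Agent.S34.H64 Fermat.Agent.S34.H30 Fermat.Agent.S34.H77

/-- The transversality clause of `H27.Crossing` at every closed point of the special fibre of
the finite chart lying on both components. -/
def CrossFib {M : ℕ} (D : VData M) : Prop :=
  ∀ x : Ideal ↥D.C₁, x.IsMaximal → algebraMap D.A₀ ↥D.C₁ D.ϖ ∈ x → Both D.V₁ D.V₂ D.C₁ x →
    ∀ r : ↥D.C₁, r ∈ x → ∃ p₁ p₂ s : ↥D.C₁, s ∉ x ∧ (p₁ : D.F₀) ∈ D.V₁.nonunits ∧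
      (p₂ : D.F₀) ∈ D.V₂.nonunits ∧ s * r = p₁ + p₂

/-- The transversality clause over the inertia field, relative to a predicate on the base
function (the binder block of `S34.H77.RegularCrossFor`). -/
def CrossFibEFor (B : (M q : ℕ) → FN M → Prop) : Prop :=
  ∀ (M q : ℕ) [NeZero M] [Fact q.Prime] (hqM : ¬ q ∣ M), LevelOK M q →
    ∀ (A : ValuationSubring Kb) (hA : A.LiesOverPrime q) (_hAtop : A ≠ ⊤)
      (O₁ : ValuationSubring (FN (M * q))) (w : FN (M * q) ≃+* FN (M * q)),
      TwoGauss M q hqM A hA O₁ w →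
      ∀ (x₀ : FN M), IsBase M q hqM A hA x₀ → B M q x₀ →
      ∀ (K₀ : IntermediateField ℚ Kb) [FiniteDimensional ℚ K₀] [Normal ℚ K₀]
        (jE : ↥(ratForm (M * q) (Fermat.Agent.S34.H92.inertiaField A K₀))),
        (jE : FN (M * q)) = heckeAlphaBar Kb M q x₀ →
        letI := algComap (A.comap (algebraMap (Fermat.Agent.S34.H92.inertiaField A K₀) Kb))
          (ratForm (M * q) (Fermat.Agent.S34.H92.inertiaField A K₀))
        ∀ (y : Ideal ↥(chart ↥(A.comap (algebraMap (Fermat.Agent.S34.H92.inertiaField A K₀) Kb))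
            jE)) [y.IsPrime], y.IsMaximal →
          (∀ c : ↥(chart ↥(A.comap (algebraMap (Fermat.Agent.S34.H92.inertiaField A K₀) Kb)) jE),
            (c : ↥(ratForm (M * q) (Fermat.Agent.S34.H92.inertiaField A K₀))) ∈
              (O₁.comap (algebraMap ↥(ratForm (M * q) (Fermat.Agent.S34.H92.inertiaField A K₀))
                (FN (M * q)))).nonunits → c ∈ y) →
          (∀ c : ↥(chart ↥(A.comap (algebraMap (Fermat.Agent.S34.H92.inertiaField A K₀) Kb)) jE),
            (c : ↥(ratForm (M * q) (Fermat.Agent.S34.H92.inertiaField A K₀))) ∈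
              ((gaussTwo M q O₁ w).comap
                (algebraMap ↥(ratForm (M * q) (Fermat.Agent.S34.H92.inertiaField A K₀))
                  (FN (M * q)))).nonunits → c ∈ y) →
          ∀ r : ↥(chart ↥(A.comap (algebraMap (Fermat.Agent.S34.H92.inertiaField A K₀) Kb)) jE),
            r ∈ y →
            ∃ p₁ p₂ s : ↥(chart ↥(A.comap (algebraMap (Fermat.Agent.S34.H92.inertiaField A K₀) Kb))
                jE),
              s ∉ y ∧
              (p₁ : ↥(ratForm (M * q) (Fermat.Agent.S34.H92.inertiaField A K₀))) ∈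
                (O₁.comap (algebraMap ↥(ratForm (M * q) (Fermat.Agent.S34.H92.inertiaField A K₀))
                  (FN (M * q)))).nonunits ∧
              (p₂ : ↥(ratForm (M * q) (Fermat.Agent.S34.H92.inertiaField A K₀))) ∈
                ((gaussTwo M q O₁ w).comap
                  (algebraMap ↥(ratForm (M * q) (Fermat.Agent.S34.H92.inertiaField A K₀))
                    (FN (M * q)))).nonunits ∧
              s * r = p₁ + p₂

set_option maxHeartbeats 2000000 in
set_option synthInstance.maxHeartbeats 400000 in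
/-- **(6-transfer), pointwise form**: the transversality clause at the closed points on both
components of the finite chart of `stdV` over `K₀`, from the clause for the chart of the same
base function over the inertia field of `A` in `K₀`. -/
theorem crossFib_stdV_of_pt {M q : ℕ} [NeZero M] [Fact q.Prime] {hqM : ¬ q ∣ M}
    {A : ValuationSubring Kb} {hA : A.LiesOverPrime q} (hAtop : A ≠ ⊤)
    {O₁ : ValuationSubring (FN (M * q))} {w : FN (M * q) ≃+* FN (M * q)}
    (hTG : TwoGauss M q hqM A hA O₁ w) (x₀ : FN M) (hx₀ : IsBase M q hqM A hA x₀)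
    (K₀ : IntermediateField ℚ Kb) [FiniteDimensional ℚ K₀] [Normal ℚ K₀]
    (ϖ : ↥(A.comap (algebraMap K₀ Kb))) (hϖ : Irreducible ϖ)
    (j : ↥(ratForm (M * q) K₀)) (hj : (j : FN (M * q)) = heckeAlphaBar Kb M q x₀)
    (σ' : Kb ≃ₐ[ℚ] Kb)
    (hE : ∀ (jE : ↥(ratForm (M * q) (Fermat.Agent.S34.H92.inertiaField A K₀))),
        (jE : FN (M * q)) = heckeAlphaBar Kb M q x₀ →
        letI := algComap (A.comap (algebraMap (Fermat.Agent.S34.H92.inertiaField A K₀) Kb))
          (ratForm (M * q) (Fermat.Agent.S34.H92.inertiaField A K₀))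
        ∀ (y : Ideal ↥(chart ↥(A.comap (algebraMap (Fermat.Agent.S34.H92.inertiaField A K₀) Kb))
            jE)) [y.IsPrime], y.IsMaximal →
          (∀ c : ↥(chart ↥(A.comap (algebraMap (Fermat.Agent.S34.H92.inertiaField A K₀) Kb)) jE),
            (c : ↥(ratForm (M * q) (Fermat.Agent.S34.H92.inertiaField A K₀))) ∈
              (O₁.comap (algebraMap ↥(ratForm (M * q) (Fermat.Agent.S34.H92.inertiaField A K₀))
                (FN (M * q)))).nonunits → c ∈ y) →
          (∀ c : ↥(chart ↥(A.comap (algebraMap (Fermat.Agent.S34.H92.inertiaField A K₀) Kb)) jE),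
            (c : ↥(ratForm (M * q) (Fermat.Agent.S34.H92.inertiaField A K₀))) ∈
              ((gaussTwo M q O₁ w).comap
                (algebraMap ↥(ratForm (M * q) (Fermat.Agent.S34.H92.inertiaField A K₀))
                  (FN (M * q)))).nonunits → c ∈ y) →
          ∀ r : ↥(chart ↥(A.comap (algebraMap (Fermat.Agent.S34.H92.inertiaField A K₀) Kb)) jE),
            r ∈ y →
            ∃ p₁ p₂ s : ↥(chart ↥(A.comap (algebraMap (Fermat.Agent.S34.H92.inertiaField A K₀) Kb))
                jE),
              s ∉ y ∧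
              (p₁ : ↥(ratForm (M * q) (Fermat.Agent.S34.H92.inertiaField A K₀))) ∈
                (O₁.comap (algebraMap ↥(ratForm (M * q) (Fermat.Agent.S34.H92.inertiaField A K₀))
                  (FN (M * q)))).nonunits ∧
              (p₂ : ↥(ratForm (M * q) (Fermat.Agent.S34.H92.inertiaField A K₀))) ∈
                ((gaussTwo M q O₁ w).comap
                  (algebraMap ↥(ratForm (M * q) (Fermat.Agent.S34.H92.inertiaField A K₀))
                    (FN (M * q)))).nonunits ∧
              s * r = p₁ + p₂) :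
    CrossFib (stdV M q A hAtop O₁ w K₀ ϖ j σ') := by
  intro x hx hϖx hboth r hr
  have hqp : q.Prime := Fact.out
  haveI : NeZero q := ⟨hqp.ne_zero⟩
  haveI : NeZero (M * q) := ⟨Nat.mul_ne_zero (NeZero.ne M) (NeZero.ne q)⟩
  obtain ⟨π, e, g, hIB, hπ0, hg0⟩ :=
    Fermat.Agent.S34.H92.inertiaBase_exists (A := A) (K := K₀) q hqp hA
  haveI hfinE : FiniteDimensional ℚ ↥(Fermat.Agent.S34.H92.inertiaField A K₀) := hIB.fin
  have hrat : heckeAlphaBar Kb M q x₀ ∈ Set.range (ratEmb (M * q)) := hx₀.alpha_rat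
  have htr : Transcendental Kb (heckeAlphaBar Kb M q x₀) := hx₀.alpha_transcendental
  obtain ⟨jE, hjE⟩ : ∃ jE : ↥(ratForm (M * q) (Fermat.Agent.S34.H92.inertiaField A K₀)),
      (jE : FN (M * q)) = heckeAlphaBar Kb M q x₀ :=
    ⟨⟨_, mem_ratForm_of_mem_range (M * q) _ hrat⟩, rfl⟩
  obtain rfl : j = Fermat.Agent.S34.H46.ratIncl (M * q) hIB.le jE :=
    Subtype.ext (by rw [Fermat.Agent.S34.H46.coe_ratIncl, hj, hjE])
  letI algE := algComap (A.comap (algebraMap ↥(Fermat.Agent.S34.H92.inertiaField A K₀) Kb))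
    (ratForm (M * q) (Fermat.Agent.S34.H92.inertiaField A K₀))
  letI algK := algComap (A.comap (algebraMap ↥K₀ Kb)) (ratForm (M * q) K₀)
  -- the chart over the inertia field
  have hgoodE := Fermat.Agent.S34.H44.ratForm_chartsGood_of_mem (M * q) A
    (Fermat.Agent.S34.H92.inertiaField A K₀) hAtop jE (by rw [hjE]; exact hrat)
    (by rw [hjE]; exact htr)
  have hiclE := hgoodE.icl₁
  have hfracE : IsFractionRing
      ↥(chart ↥(A.comap (algebraMap ↥(Fermat.Agent.S34.H92.inertiaField A K₀) Kb)) jE)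
      ↥(ratForm (M * q) (Fermat.Agent.S34.H92.inertiaField A K₀)) :=
    Fermat.Agent.S34.H54.isFractionRing_of_forall_div _ hgoodE.frac₁
  have hqE : Irreducible
      ((q : ℕ) : ↥(A.comap (algebraMap ↥(Fermat.Agent.S34.H92.inertiaField A K₀) Kb))) :=
    hIB.irreducible_natCast hqp hA
  have hradE := span_natCast_isRadical_ratForm hTG hAtop x₀ hx₀
    (Fermat.Agent.S34.H92.inertiaField A K₀) hqE jE hjE
  -- the chart of the model
  haveI hdvrK : IsDiscreteValuationRing ↥(A.comap (algebraMap ↥K₀ Kb)) :=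
    Fermat.Agent.S34.H78.isDVR_comap hAtop K₀
  haveI hxp : x.IsPrime := hx.isPrime
  have hxK : x₀ ∈ ratForm M K₀ := mem_ratForm_of_mem_range M K₀ hx₀.1
  obtain ⟨hS, hS'⟩ := hx₀.2 K₀ hxK
  have hdeg := Fermat.Agent.S34.H59.finrank_alphaForm M q K₀ hqp hqM
  have hgoodK := vGood_ratForm_of_finrank hTG K₀ ϖ hϖ (⟨x₀, hxK⟩ : ↥(ratForm M K₀)) hS hS' hdeg
  have hjK : alphaForm M q K₀ (⟨x₀, hxK⟩ : ↥(ratForm M K₀)) =
      Fermat.Agent.S34.H46.ratIncl (M * q) hIB.le jE :=
    Subtype.ext (by rw [Fermat.Agent.S34.H46.coe_ratIncl, hjE]; rfl)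
  have hle : ∀ j' : ↥(ratForm (M * q) K₀), alphaForm M q K₀ (⟨x₀, hxK⟩ : ↥(ratForm M K₀)) = j' →
      ∀ c ∈ chart ↥(A.comap (algebraMap ↥K₀ Kb)) j',
        c ∈ O₁.comap (algebraMap ↥(ratForm (M * q) K₀) (FN (M * q))) := by
    rintro _ rfl
    exact hgoodK.le₁₁
  have hϖ₁ : algebraMap ↥(A.comap (algebraMap ↥K₀ Kb)) ↥(ratForm (M * q) K₀) ϖ ∈
      (O₁.comap (algebraMap ↥(ratForm (M * q) K₀) (FN (M * q)))).nonunits := by
    refine (hgoodK.unif₁ _).2 ⟨1, ValuationSubring.one_mem _, ?_⟩
    rw [Algebra.smul_def, mul_one]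
  -- the trace of `x` on the chart over the inertia field
  have hdec := Fermat.Agent.S34.H46.chart_dec_ratForm_hom (M * q) A hIB hqp.ne_zero hπ0 hg0 ϖ hϖ
    jE hiclE hfracE hradE
  have hymax := comap_isMaximal_of_dec (Fermat.Agent.S34.H46.chartIncl (M * q) A hIB.le jE) x hx
    _ hϖx hdec
  haveI hyp := hymax.isPrime
  -- both components pass through the trace
  have hb : ∀ V : ValuationSubring (FN (M * q)),
      (∀ c : ↥(chart ↥(A.comap (algebraMap ↥K₀ Kb))
          (Fermat.Agent.S34.H46.ratIncl (M * q) hIB.le jE)),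
        (c : ↥(ratForm (M * q) K₀)) ∈
          (V.comap (algebraMap ↥(ratForm (M * q) K₀) (FN (M * q)))).nonunits → c ∈ x) →
      ∀ c : ↥(chart ↥(A.comap (algebraMap ↥(Fermat.Agent.S34.H92.inertiaField A K₀) Kb)) jE),
        (c : ↥(ratForm (M * q) (Fermat.Agent.S34.H92.inertiaField A K₀))) ∈
          (V.comap (algebraMap ↥(ratForm (M * q) (Fermat.Agent.S34.H92.inertiaField A K₀))
            (FN (M * q)))).nonunits →
        c ∈ x.comap (Fermat.Agent.S34.H46.chartIncl (M * q) A hIB.le jE) := by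
    intro V hV c hc
    rw [Ideal.mem_comap]
    apply hV
    rw [Fermat.Agent.S34.H61.mem_nonunits_comap_iff] at hc ⊢
    exact hc
  -- the nonunits of the Gauss rings over `E` are nonunits over `K₀`
  have hnu : ∀ V : ValuationSubring (FN (M * q)),
      ∀ c : ↥(chart ↥(A.comap (algebraMap ↥(Fermat.Agent.S34.H92.inertiaField A K₀) Kb)) jE),
        (c : ↥(ratForm (M * q) (Fermat.Agent.S34.H92.inertiaField A K₀))) ∈
          (V.comap (algebraMap ↥(ratForm (M * q) (Fermat.Agent.S34.H92.inertiaField A K₀))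
            (FN (M * q)))).nonunits →
        ((Fermat.Agent.S34.H46.chartIncl (M * q) A hIB.le jE c :
            ↥(chart ↥(A.comap (algebraMap ↥K₀ Kb))
              (Fermat.Agent.S34.H46.ratIncl (M * q) hIB.le jE))) : ↥(ratForm (M * q) K₀)) ∈
          (V.comap (algebraMap ↥(ratForm (M * q) K₀) (FN (M * q)))).nonunits := by
    intro V c hc
    rw [Fermat.Agent.S34.H61.mem_nonunits_comap_iff] at hc ⊢
    exact hc
  have hfibE := hE jE hjE (x.comap (Fermat.Agent.S34.H46.chartIncl (M * q) A hIB.le jE)) hymax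
    (hb O₁ hboth.1) (hb (gaussTwo M q O₁ w) hboth.2)
  refine Fermat.Agent.S35.H97.fib_of_dec
    (chart ↥(A.comap (algebraMap ↥K₀ Kb)) (Fermat.Agent.S34.H46.ratIncl (M * q) hIB.le jE))
    (O₁.comap (algebraMap ↥(ratForm (M * q) K₀) (FN (M * q))))
    ((gaussTwo M q O₁ w).comap (algebraMap ↥(ratForm (M * q) K₀) (FN (M * q))))
    (hle _ hjK) x (Fermat.Agent.S34.H46.chartIncl (M * q) A hIB.le jE) _ hϖx hϖ₁ hdec ?_ r hr
  intro a ha
  obtain ⟨p₁, p₂, s, hs, hp₁, hp₂, hsa⟩ := hfibE a (Ideal.mem_comap.2 ha)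
  exact ⟨p₁, p₂, s, fun h => hs (Ideal.mem_comap.2 h), hnu O₁ p₁ hp₁,
    hnu (gaussTwo M q O₁ w) p₂ hp₂, hsa⟩

/-- **(6-transfer)**: the transversality clause at the closed points on both components of the
finite chart of `stdV`, on the binder block of the relative leaves, from the clause over the
inertia field. -/
theorem crossFib_stdV (B : (M q : ℕ) → FN M → Prop) (hE : CrossFibEFor B)
    (M q : ℕ) [NeZero M] [Fact q.Prime] (hqM : ¬ q ∣ M) (hlev : LevelOK M q)
    (A : ValuationSubring Kb) (hA : A.LiesOverPrime q) (hAtop : A ≠ ⊤)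
    (O₁ : ValuationSubring (FN (M * q))) (w : FN (M * q) ≃+* FN (M * q))
    (hTG : TwoGauss M q hqM A hA O₁ w) (x₀ : FN M) (hx₀ : IsBase M q hqM A hA x₀)
    (hB : B M q x₀) (K₀ : IntermediateField ℚ Kb) [FiniteDimensional ℚ K₀] [Normal ℚ K₀]
    (ϖ : ↥(A.comap (algebraMap K₀ Kb))) (hϖ : Irreducible ϖ)
    (j : ↥(ratForm (M * q) K₀)) (hj : (j : FN (M * q)) = heckeAlphaBar Kb M q x₀)
    (σ' : Kb ≃ₐ[ℚ] Kb) : CrossFib (stdV M q A hAtop O₁ w K₀ ϖ j σ') :=
  crossFib_stdV_of_pt hAtop hTG x₀ hx₀ K₀ ϖ hϖ j hj σ'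
    (fun jE hjE => hE M q hqM hlev A hA hAtop O₁ w hTG x₀ hx₀ hB K₀ jE hjE)

end Fermat.Agent.S35.H10
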