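/-
S35-GEO, leaf (L6b), piece (6-transfer), closed form (helper10): the transversality clause of
`H27.Crossing` (its sixth conjunct) at every closed point on both components of the finite chart
of the concrete model `S34.H30.stdV`, for the standard base function.

* `crossFib_stdV_std` : `CrossFib (stdV M q A hAtop O₁ w K₀ ϖ j σ')` for `StdB M q x₀`, with no
  hypothesis left: `crossFib_stdV_of_pt` (the transfer from the inertia field, `CrossFibK.lean`)
  applied to helper60's `S35.H60.transCross_std` (transversality over the inertia field).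
* `CrossFib.sixth` : `CrossFib D` at one closed point, in the exact form of the sixth conjunct
  of `H27.Crossing`.
-/
import Fermat.Agent.S35.H10.CrossFibK
import Fermat.Agent.S35.H60.CrossFibRat

set_option autoImplicit false
set_option linter.style.haveILetI false
set_option linter.unusedSectionVars false

open AlgebraicCurve ModularCurve

noncomputable section

namespace Fermat.Agent.S35.H10

open Fermat.Agent.S34.H27 Fermat.Agent.S34.H10 Fermat.Agent.S34.H7
  Fermat.Agent.S18 Fermat.Agent.S18.H74 Fermat.Agent.S18.H19 Fermat.Agent.S34.H19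
  Fermat.Agent.S34.H61 Fermat.Agent.S34.H64 Fermat.Agent.S34.H30 Fermat.Agent.S34.H77

/-- **(6-transfer), closed form**: transversality at the closed points on both components of the
finite chart of `stdV`, for the standard base function. -/
theorem crossFib_stdV_std (M q : ℕ) [NeZero M] [Fact q.Prime] (hqM : ¬ q ∣ M)
    (A : ValuationSubring Kb) (hA : A.LiesOverPrime q) (hAtop : A ≠ ⊤)
    (O₁ : ValuationSubring (FN (M * q))) (w : FN (M * q) ≃+* FN (M * q))
    (hTG : TwoGauss M q hqM A hA O₁ w) (x₀ : FN M) (hx₀ : IsBase M q hqM A hA x₀)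
    (hB : StdB M q x₀) (K₀ : IntermediateField ℚ Kb) [FiniteDimensional ℚ K₀] [Normal ℚ K₀]
    (ϖ : ↥(A.comap (algebraMap K₀ Kb))) (hϖ : Irreducible ϖ)
    (j : ↥(ratForm (M * q) K₀)) (hj : (j : FN (M * q)) = heckeAlphaBar Kb M q x₀)
    (σ' : Kb ≃ₐ[ℚ] Kb) : CrossFib (stdV M q A hAtop O₁ w K₀ ϖ j σ') :=
  crossFib_stdV_of_pt hAtop hTG x₀ hx₀ K₀ ϖ hϖ j hj σ'
    (fun jE hjE y _ hy h₁ h₂ =>
      Fermat.Agent.S35.H60.transCross_std M q hqM A hA hAtop O₁ w hTG x₀ hx₀ hB K₀ jE hjE y hy
        h₁ h₂)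

/-- The sixth conjunct of `H27.Crossing` at a closed point of the special fibre of the finite
chart of a model lying on both components, from `CrossFib`. -/
theorem CrossFib.sixth {M : ℕ} {D : VData M} (h : CrossFib D) (x : Ideal ↥D.C₁)
    (hx : x.IsMaximal) (hϖx : algebraMap D.A₀ ↥D.C₁ D.ϖ ∈ x) (hboth : Both D.V₁ D.V₂ D.C₁ x) :
    ∀ r : ↥D.C₁, r ∈ x → ∃ p₁ p₂ s : ↥D.C₁, s ∉ x ∧ (p₁ : D.F₀) ∈ D.V₁.nonunits ∧
      (p₂ : D.F₀) ∈ D.V₂.nonunits ∧ s * r = p₁ + p₂ :=
  h x hx hϖx hboth

end Fermat.Agent.S35.H10
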