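/-
S35-GEO (helper27's tree), leaves (L2) and (L2') of `S35/H27/FrobLeaves.lean` (helper10):

  `frobNeLeaf : H27.FrobNeLeaf`  — PROVED, unconditional (from `H64.TwoGauss` alone);
  `scaleLeaf  : H27.ScaleLeaf`   — PROVED, unconditional.

(L2): the two Gauss rings of the concrete model `H30.stdV` are distinct and `ϖ`-archimedean
(`S35.H10.stdV_neArch`).  (L2'): they have the `ϖ`-adic scale — the fields `scale₁`, `scale₂` of
`S34.H10.VGood`, from `H61.vGood_ratForm_of_finrank` (helper61) and the degree `q + 1`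
(`H59.finrank_alphaForm`, helper59), exactly as in `H61.semiLeaf`.
-/
import Fermat.Agent.S35.H27.FrobLeaves
import Fermat.Agent.S35.H10.FS3
import Fermat.Agent.S34.H61.Concrete3
import Fermat.Agent.S34.H59.FDeg

set_option autoImplicit false
set_option linter.style.haveILetI false

open AlgebraicCurve ModularCurve

noncomputable section

namespace Fermat.Agent.S35.H10

open Fermat.Agent.S18 Fermat.Agent.S18.H74 Fermat.Agent.S34.H19 Fermat.Agent.S34.H64
  Fermat.Agent.S34.H30 Fermat.Agent.S34.H61 Fermat.Agent.S35.H27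

/-- **Leaf (L2): proved.**  The two Gauss rings of the concrete model are distinct and
`ϖ`-archimedean. -/
theorem frobNeLeaf : FrobNeLeaf := by
  intro M q _ hqF hqM A hA hAtop O₁ w hTG x₀ _ K₀ _ _ ϖ hϖ j _ σ'
  obtain ⟨h1, h2, h3⟩ := stdV_neArch hTG hAtop K₀ ϖ hϖ j σ'
  exact ⟨h1, h2, h3⟩

/-- **Leaf (L2'): proved.**  The two Gauss rings of the concrete model are discrete with
uniformiser `ϖ`. -/
theorem scaleLeaf : ScaleLeaf := by
  intro M q _ hqF hqM A hA hAtop O₁ w hTG x₀ hx₀ K₀ _ _ ϖ hϖ j hj σ'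
  haveI : NeZero q := ⟨hqF.out.ne_zero⟩
  haveI : IsDiscreteValuationRing ↥(A.comap (algebraMap K₀ Kb)) :=
    Fermat.Agent.S34.H78.isDVR_comap hAtop K₀
  have hxmem : x₀ ∈ ratForm M K₀ := mem_ratForm_of_mem_range M K₀ hx₀.1
  obtain ⟨hS, hS'⟩ := hx₀.2 K₀ hxmem
  have hdeg := Fermat.Agent.S34.H59.finrank_alphaForm M q K₀ hqF.out hqM
  have hG := vGood_ratForm_of_finrank hTG K₀ ϖ hϖ ⟨x₀, hxmem⟩ hS hS' hdeg
  obtain ⟨-, -, -, -, -, -, -, -, -, -, -, -, h13, h14, -, -⟩ := hG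
  exact ⟨h13, h14⟩

end Fermat.Agent.S35.H10
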